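import Fermat.Agent.S28.ModL.Defs

/-!
# S28, Part B (also used by Part C): transcendence of series with a pole.  (statements frozen)

If `J` has leading term `q^{-M}` (`LeadingAt J M`, `M > 0`) then `b(J) ≠ 0` for every nonzero
polynomial `b`: the coefficient of `b(J)` in degree `-M·deg b` is the leading coefficient of `b`.
-/

set_option autoImplicit false

noncomputable section

namespace Fermat.Agent.S28

open ModularCurve

section

variable {S : Type*} [CommRing S]

/-- `j` itself. -/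
theorem leadingAt_jqModC (S : Type*) [CommRing S] : LeadingAt (jqModC S) 1 := by
  intro k
  refine ⟨?_, fun m hm => ?_⟩
  · rw [one_mul]
    exact ModularCurve.coeff_jqModC_pow_self S k
  · rw [one_mul] at hm
    exact ModularCurve.coeff_jqModC_pow_of_lt S hm

/-- `j(q^N)`. -/
theorem LeadingAt.qExpand (N : ℕ) [NeZero N] {J : LaurentSeries S} {M : ℕ} (h : LeadingAt J M) :
    LeadingAt (ModularCurve.qExpand S N J) (N * M) := by
  intro k
  have hpow : (ModularCurve.qExpand S N J) ^ k = ModularCurve.qExpand S N (J ^ k) :=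
    (map_pow (ModularCurve.qExpand S N) J k).symm
  have hN : (0 : ℤ) < (N : ℤ) := by exact_mod_cast Nat.pos_of_ne_zero (NeZero.ne N)
  rw [hpow]
  refine ⟨?_, fun m hm => ?_⟩
  · have h1 : (-((N * M * k : ℕ) : ℤ)) = (N : ℤ) * (-((M * k : ℕ) : ℤ)) := by
      push_cast; ring
    rw [h1, ModularCurve.qExpand_coeff_mul]
    exact (h k).1
  · by_cases hdvd : (N : ℤ) ∣ m
    · obtain ⟨m', rfl⟩ := hdvd
      rw [ModularCurve.qExpand_coeff_mul]
      apply (h k).2
      have h1 : (-((N * M * k : ℕ) : ℤ)) = (N : ℤ) * (-((M * k : ℕ) : ℤ)) := by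
        push_cast; ring
      rw [h1] at hm
      exact lt_of_mul_lt_mul_left hm hN.le
    · exact ModularCurve.qExpand_coeff_of_not_dvd N _ hdvd

/-- `j(q^N)`, ready to use. -/
theorem leadingAt_qExpand_jqModC (S : Type*) [CommRing S] (N : ℕ) [NeZero N] :
    LeadingAt (ModularCurve.qExpand S N (jqModC S)) N := by
  have h := (leadingAt_jqModC S).qExpand N
  rwa [mul_one] at h

/-- Change of coefficients. -/
theorem LeadingAt.coeffMap {T : Type*} [CommRing T] (f : S →+* T) {J : LaurentSeries S} {M : ℕ}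
    (h : LeadingAt J M) : LeadingAt (ModularCurve.coeffMap f J) M := by
  intro k
  have hpow : (ModularCurve.coeffMap f J) ^ k = ModularCurve.coeffMap f (J ^ k) :=
    (map_pow (ModularCurve.coeffMap f) J k).symm
  rw [hpow]
  refine ⟨?_, fun m hm => ?_⟩
  · rw [ModularCurve.coeffMap_coeff, (h k).1, map_one]
  · rw [ModularCurve.coeffMap_coeff, (h k).2 m hm, map_zero]

/-- Coefficient of a constant multiple. -/
private theorem transc_aux_coeff_C_mul (s : S) (f : LaurentSeries S) (m : ℤ) :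
    ((HahnSeries.C : S →+* LaurentSeries S) s * f).coeff m = s * f.coeff m := by
  rw [HahnSeries.C_mul_eq_smul, HahnSeries.coeff_smul, smul_eq_mul]

/-- The coefficient of `b(J)` in degree `-M·deg b` is the leading coefficient of `b`. -/
theorem LeadingAt.coeff_eval₂ {J : LaurentSeries S} {M : ℕ} (h : LeadingAt J M) (hM : 0 < M)
    (b : Polynomial S) :
    (b.eval₂ (HahnSeries.C : S →+* LaurentSeries S) J).coeff (-((M * b.natDegree : ℕ) : ℤ)) =
      b.leadingCoeff := by
  rw [Polynomial.eval₂_eq_sum_range, HahnSeries.coeff_sum, Finset.sum_range_succ]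
  have hzero : ∀ i ∈ Finset.range b.natDegree,
      ((HahnSeries.C : S →+* LaurentSeries S) (b.coeff i) * J ^ i).coeff
        (-((M * b.natDegree : ℕ) : ℤ)) = 0 := by
    intro i hi
    rw [transc_aux_coeff_C_mul]
    have hlt : (-((M * b.natDegree : ℕ) : ℤ)) < -((M * i : ℕ) : ℤ) := by
      have : M * i < M * b.natDegree := Nat.mul_lt_mul_of_pos_left (Finset.mem_range.mp hi) hM
      omega
    rw [(h i).2 _ hlt, mul_zero]
  rw [Finset.sum_eq_zero hzero, zero_add, transc_aux_coeff_C_mul, (h b.natDegree).1, mul_one]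
  rfl

/-- The coefficients of `b(J)` in degrees `< -M·deg b` vanish. -/
theorem LeadingAt.coeff_eval₂_of_lt {J : LaurentSeries S} {M : ℕ} (h : LeadingAt J M)
    (hM : 0 < M) (b : Polynomial S) {m : ℤ} (hm : m < -((M * b.natDegree : ℕ) : ℤ)) :
    (b.eval₂ (HahnSeries.C : S →+* LaurentSeries S) J).coeff m = 0 := by
  have _ := hM
  rw [Polynomial.eval₂_eq_sum_range, HahnSeries.coeff_sum]
  apply Finset.sum_eq_zero
  intro i hi
  rw [transc_aux_coeff_C_mul]
  have hlt : m < -((M * i : ℕ) : ℤ) := by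
    have hi' : i ≤ b.natDegree := Nat.lt_succ_iff.mp (Finset.mem_range.mp hi)
    have : M * i ≤ M * b.natDegree := Nat.mul_le_mul_left M hi'
    omega
  rw [(h i).2 _ hlt, mul_zero]

/-- `b ≠ 0 → b(J)` has a nonzero coefficient in some degree `≤ 0`. -/
theorem LeadingAt.exists_coeff_ne_zero {J : LaurentSeries S} {M : ℕ} (h : LeadingAt J M)
    (hM : 0 < M) {b : Polynomial S} (hb : b ≠ 0) :
    ∃ m : ℤ, m ≤ 0 ∧ (b.eval₂ (HahnSeries.C : S →+* LaurentSeries S) J).coeff m ≠ 0 := by
  refine ⟨-((M * b.natDegree : ℕ) : ℤ), ?_, ?_⟩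
  · have : (0 : ℤ) ≤ ((M * b.natDegree : ℕ) : ℤ) := Int.natCast_nonneg _
    omega
  · rw [h.coeff_eval₂ hM b]
    exact Polynomial.leadingCoeff_ne_zero.mpr hb

/-- `b ≠ 0 → b(J) ≠ 0`. -/
theorem LeadingAt.eval₂_ne_zero {J : LaurentSeries S} {M : ℕ} (h : LeadingAt J M)
    (hM : 0 < M) {b : Polynomial S} (hb : b ≠ 0) :
    b.eval₂ (HahnSeries.C : S →+* LaurentSeries S) J ≠ 0 := by
  obtain ⟨m, -, hm⟩ := h.exists_coeff_ne_zero hM hb
  intro h0
  apply hm
  rw [h0]
  rfl

/-- `b ↦ b(J)` is injective. -/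
theorem LeadingAt.eval₂_injective {J : LaurentSeries S} {M : ℕ} (h : LeadingAt J M)
    (hM : 0 < M) :
    Function.Injective
      (Polynomial.eval₂RingHom (HahnSeries.C : S →+* LaurentSeries S) J) := by
  rw [injective_iff_map_eq_zero]
  intro b hb
  by_contra hne
  exact h.eval₂_ne_zero hM hne (by rwa [Polynomial.coe_eval₂RingHom] at hb)

end

end Fermat.Agent.S28
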