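import Fermat.Agent.S28.ModL.Defs

/-!
# S28, Part B, steps B0 and L5: `Ψ(j, u) = 0` and `Ψ'(j, u) ≠ 0` over `W`.  (statements frozen)
-/

set_option autoImplicit false

noncomputable section

namespace Fermat.Agent.S28

open ModularCurve

section

variable {N : ℕ} [NeZero N] {W : Subring (AlgebraicClosure ℚ)}
  {u : LaurentSeries ℤ} {ι : Type} [Fintype ι] {i₀ : ι} {G : ι → LaurentSeries ↥W}
  {Ψ : Polynomial (Polynomial ↥W)}

/-- `qExpand` of `c(j, u)` is the value at `G i₀` of `c` mapped to `W((q))[X]`. -/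
private theorem basic_aux_qExpand_ev2 (h : AnaPkg N W u ι i₀ G Ψ)
    (c : Polynomial (Polynomial ↥W)) :
    qExpand ↥W N (ev2 (jqModC ↥W) (coeffMap (Int.castRingHom ↥W) u) c) =
      (c.map (Polynomial.eval₂RingHom (HahnSeries.C : ↥W →+* LaurentSeries ↥W)
        (qExpand ↥W N (jqModC ↥W)))).eval (G i₀) := by
  rw [qExpand_ev2, ← h.b, ev2_def, Polynomial.eval₂_eq_eval_map]

/-- B0: `Ψ(j, u) = 0` in `W((q))`. -/
theorem AnaPkg.ev2_eq_zero (h : AnaPkg N W u ι i₀ G Ψ) :
    ev2 (jqModC ↥W) (coeffMap (Int.castRingHom ↥W) u) Ψ = 0 := by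
  apply qExpand_injective (R := ↥W) (N := N)
  rw [map_zero, basic_aux_qExpand_ev2 h, h.d, Polynomial.eval_prod]
  apply Finset.prod_eq_zero (Finset.mem_univ i₀)
  simp

/-- L5: `Ψ'(j, u) ≠ 0` in `W((q))` (`Ψ' = ∂Ψ/∂X`), if the conjugates are pairwise distinct. -/
theorem AnaPkg.deriv_ne_zero (h : AnaPkg N W u ι i₀ G Ψ) (hinj : Function.Injective G) :
    ev2 (jqModC ↥W) (coeffMap (Int.castRingHom ↥W) u) (Polynomial.derivative Ψ) ≠ 0 := by
  classical
  intro h0
  have h1 := congrArg (qExpand ↥W N) h0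
  rw [map_zero, basic_aux_qExpand_ev2 h, ← Polynomial.derivative_map, h.d,
    ← Finset.mul_prod_erase Finset.univ _ (Finset.mem_univ i₀), Polynomial.derivative_mul,
    Polynomial.eval_add, Polynomial.eval_mul, Polynomial.eval_mul, Polynomial.eval_sub,
    Polynomial.eval_X, Polynomial.eval_C, sub_self, zero_mul, add_zero,
    Polynomial.derivative_sub, Polynomial.derivative_X, Polynomial.derivative_C, sub_zero,
    Polynomial.eval_one, one_mul, Polynomial.eval_prod] at h1
  rw [Finset.prod_eq_zero_iff] at h1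
  obtain ⟨i, hi, hi0⟩ := h1
  rw [Polynomial.eval_sub, Polynomial.eval_X, Polynomial.eval_C, sub_eq_zero] at hi0
  exact (Finset.ne_of_mem_erase hi) (hinj hi0).symm

end

end Fermat.Agent.S28
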