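import Fermat.Agent.S28.Defs

/-!
# S28, Part B, step B3: descent of polynomial relations from `ℚ̄` to `ℚ`.  (statement frozen)

Apply a `ℚ`-linear retraction `π : ℚ̄ → ℚ` (`π 1 = 1`) to all coefficients.
-/

set_option autoImplicit false

noncomputable section

namespace Fermat.Agent.S28

open ModularCurve

section Aux

variable {A : Type} [CommRing A] [Algebra ℚ A] (π : A →ₗ[ℚ] ℚ)

/-- Coefficientwise application of `π` to a Laurent series. -/
private def descent_aux_ser : LaurentSeries A →+ LaurentSeries ℚ where
  toFun g := g.map π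
  map_zero' := by
    ext k
    simp
  map_add' x y := by
    ext k
    simp

private theorem descent_aux_ser_coeff (g : LaurentSeries A) (k : ℤ) :
    (descent_aux_ser π g).coeff k = π (g.coeff k) := rfl

private theorem descent_aux_ser_C (a : A) :
    descent_aux_ser π (HahnSeries.C a) = HahnSeries.C (π a) := by
  ext k
  rw [descent_aux_ser_coeff, HahnSeries.C_apply, HahnSeries.C_apply]
  rcases eq_or_ne k 0 with rfl | hk
  · simp
  · simp [HahnSeries.coeff_single_of_ne hk]

/-- `π_*` is a retraction of `coeffMap (algebraMap ℚ A)`. -/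
private theorem descent_aux_ser_coeffMap (hπ : ∀ x : ℚ, π (algebraMap ℚ A x) = x)
    (f : LaurentSeries ℚ) : descent_aux_ser π (coeffMap (algebraMap ℚ A) f) = f := by
  ext k
  rw [descent_aux_ser_coeff, coeffMap_coeff, hπ]

/-- `π_*` is linear over rational Laurent series. -/
private theorem descent_aux_ser_mul (f : LaurentSeries ℚ) (g : LaurentSeries A) :
    descent_aux_ser π (coeffMap (algebraMap ℚ A) f * g) = f * descent_aux_ser π g := by
  ext a
  have h1 : (coeffMap (algebraMap ℚ A) f).support ⊆ f.support := by
    intro k hk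
    rw [HahnSeries.mem_support] at hk ⊢
    intro h0
    apply hk
    rw [coeffMap_coeff, h0, map_zero]
  have h2 : (descent_aux_ser π g).support ⊆ g.support := by
    intro k hk
    rw [HahnSeries.mem_support] at hk ⊢
    intro h0
    apply hk
    rw [descent_aux_ser_coeff, h0, map_zero]
  rw [descent_aux_ser_coeff, HahnSeries.coeff_mul_left' f.isPWO_support h1,
    HahnSeries.coeff_mul_right' g.isPWO_support h2, map_sum]
  refine Finset.sum_congr rfl fun ij _ => ?_
  rw [coeffMap_coeff, descent_aux_ser_coeff, ← Algebra.smul_def, map_smul, smul_eq_mul]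

/-- Coefficientwise application of `π` to a polynomial. -/
private def descent_aux_poly (b : Polynomial A) : Polynomial ℚ :=
  ∑ i ∈ b.support, Polynomial.monomial i (π (b.coeff i))

private theorem descent_aux_poly_coeff (b : Polynomial A) (i : ℕ) :
    (descent_aux_poly π b).coeff i = π (b.coeff i) := by
  rw [descent_aux_poly, Polynomial.finsetSum_coeff]
  simp only [Polynomial.coeff_monomial]
  rw [Finset.sum_ite_eq' b.support i]
  split_ifs with h
  · rfl
  · rw [Polynomial.notMem_support_iff.mp h, map_zero]

private theorem descent_aux_poly_zero : descent_aux_poly π (0 : Polynomial A) = 0 := by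
  simp [descent_aux_poly]

private theorem descent_aux_poly_one (hπ : ∀ x : ℚ, π (algebraMap ℚ A x) = x) :
    descent_aux_poly π (1 : Polynomial A) = 1 := by
  ext i
  rw [descent_aux_poly_coeff, Polynomial.coeff_one, Polynomial.coeff_one]
  split_ifs with h
  · have := hπ 1
    rwa [map_one] at this
  · exact map_zero π

/-- Coefficientwise application of `π` to a two-variable polynomial. -/
private def descent_aux_P (c : Polynomial (Polynomial A)) : Polynomial (Polynomial ℚ) :=
  ∑ k ∈ c.support, Polynomial.monomial k (descent_aux_poly π (c.coeff k))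

private theorem descent_aux_P_coeff (c : Polynomial (Polynomial A)) (k : ℕ) :
    (descent_aux_P π c).coeff k = descent_aux_poly π (c.coeff k) := by
  rw [descent_aux_P, Polynomial.finsetSum_coeff]
  simp only [Polynomial.coeff_monomial]
  rw [Finset.sum_ite_eq' c.support k]
  split_ifs with h
  · rfl
  · rw [Polynomial.notMem_support_iff.mp h, descent_aux_poly_zero]

private theorem descent_aux_P_monic (hπ : ∀ x : ℚ, π (algebraMap ℚ A x) = x)
    (c : Polynomial (Polynomial A)) (hc : c.Monic) :
    (descent_aux_P π c).Monic ∧ (descent_aux_P π c).natDegree = c.natDegree := by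
  have hle : (descent_aux_P π c).natDegree ≤ c.natDegree := by
    rw [Polynomial.natDegree_le_iff_coeff_eq_zero]
    intro k hk
    rw [descent_aux_P_coeff, Polynomial.coeff_eq_zero_of_natDegree_lt hk, descent_aux_poly_zero]
  have hone : (descent_aux_P π c).coeff c.natDegree = 1 := by
    rw [descent_aux_P_coeff, Polynomial.coeff_natDegree, hc.leadingCoeff,
      descent_aux_poly_one π hπ]
  refine ⟨Polynomial.monic_of_natDegree_le_of_coeff_eq_one _ hle hone, le_antisymm hle ?_⟩
  apply Polynomial.le_natDegree_of_ne_zero
  rw [hone]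
  exact one_ne_zero

/-- Descent for a polynomial in the inner variable, times a rational series. -/
private theorem descent_aux_inner (j G : LaurentSeries ℚ) (b : Polynomial A) :
    descent_aux_ser π
        (Polynomial.eval₂ (HahnSeries.C : A →+* LaurentSeries A) (coeffMap (algebraMap ℚ A) j) b *
          coeffMap (algebraMap ℚ A) G) =
      Polynomial.eval₂ (HahnSeries.C : ℚ →+* LaurentSeries ℚ) j (descent_aux_poly π b) * G := by
  rw [Polynomial.eval₂_eq_sum, Polynomial.sum_def, Finset.sum_mul, map_sum, descent_aux_poly,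
    Polynomial.eval₂_finsetSum, Finset.sum_mul]
  refine Finset.sum_congr rfl fun i _ => ?_
  have h : HahnSeries.C (b.coeff i) * coeffMap (algebraMap ℚ A) j ^ i *
      coeffMap (algebraMap ℚ A) G =
      coeffMap (algebraMap ℚ A) (j ^ i * G) * HahnSeries.C (b.coeff i) := by
    rw [map_mul, map_pow]
    ring
  rw [h, descent_aux_ser_mul, descent_aux_ser_C, Polynomial.eval₂_monomial]
  ring

/-- Descent for `ev2`. -/
private theorem descent_aux_ev2 (j u : LaurentSeries ℚ) (c : Polynomial (Polynomial A)) :
    descent_aux_ser π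
        (ev2 (coeffMap (algebraMap ℚ A) j) (coeffMap (algebraMap ℚ A) u) c) =
      ev2 j u (descent_aux_P π c) := by
  rw [ev2_eq_sum, Polynomial.sum_def, map_sum, descent_aux_P, ev2_sum]
  refine Finset.sum_congr rfl fun k _ => ?_
  rw [← map_pow, descent_aux_inner, ev2_def, Polynomial.eval₂_monomial]
  rfl

end Aux

/-- There is a map `P : ℚ̄[Y][X] → ℚ[Y][X]` preserving monic polynomials and their degrees such
that every identity `f = c(j, u)` over `ℚ̄` with `f` rational descends to `f = (P c)(j, u)`
over `ℚ`. -/
theorem exists_descent (u : LaurentSeries ℤ) :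
    ∃ P : Polynomial (Polynomial (AlgebraicClosure ℚ)) → Polynomial (Polynomial ℚ),
      (∀ c : Polynomial (Polynomial (AlgebraicClosure ℚ)), c.Monic →
        (P c).Monic ∧ (P c).natDegree = c.natDegree) ∧
      (∀ (f : LaurentSeries ℚ) (c : Polynomial (Polynomial (AlgebraicClosure ℚ))),
        coeffMap (algebraMap ℚ (AlgebraicClosure ℚ)) f =
          ev2 (jqModC (AlgebraicClosure ℚ)) (coeffMap (Int.castRingHom (AlgebraicClosure ℚ)) u) c →
        f = ev2 (jqModC ℚ) (coeffMap (Int.castRingHom ℚ) u) (P c)) := by
  obtain ⟨π, hπ'⟩ := LinearMap.exists_leftInverse_of_injective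
    (Algebra.linearMap ℚ (AlgebraicClosure ℚ))
    (LinearMap.ker_eq_bot.mpr (algebraMap ℚ (AlgebraicClosure ℚ)).injective)
  have hπ : ∀ x : ℚ, π (algebraMap ℚ (AlgebraicClosure ℚ) x) = x := fun x => by
    have := congrArg (fun g => g x) hπ'
    simpa using this
  refine ⟨descent_aux_P π, fun c hc => descent_aux_P_monic π hπ c hc, fun f c hfc => ?_⟩
  have hj : jqModC (AlgebraicClosure ℚ) =
      coeffMap (algebraMap ℚ (AlgebraicClosure ℚ)) (jqModC ℚ) := (coeffMap_jqModC _).symm
  have hu : coeffMap (Int.castRingHom (AlgebraicClosure ℚ)) u =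
      coeffMap (algebraMap ℚ (AlgebraicClosure ℚ)) (coeffMap (Int.castRingHom ℚ) u) := by
    rw [coeffMap_coeffMap]
    exact coeffMap_congr (RingHom.ext_int _ _) u
  rw [hj, hu] at hfc
  rw [← descent_aux_ev2 π, ← hfc, descent_aux_ser_coeffMap π hπ]

end Fermat.Agent.S28
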