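import Fermat.Agent.S28.ModL.Indep
import Fermat.Agent.S28.ModL.Basic
import Fermat.Agent.S28.ModL.Descent
import Fermat.Agent.S28.Zl

/-!
# S28, Part B, step B3: `Ψ` has coefficients in `ℤ_(ℓ)`, and the generators `j(q^d)` lie in
`ℚ(j, u)`.  (statements frozen)
-/

set_option autoImplicit false

noncomputable section

namespace Fermat.Agent.S28

open ModularCurve

/-- Base change of the integral series `u`. -/
private theorem rational_aux_coeffMap_int {S T : Type*} [CommRing S] [CommRing T] (g : S →+* T)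
    (u : LaurentSeries ℤ) :
    coeffMap g (coeffMap (Int.castRingHom S) u) = coeffMap (Int.castRingHom T) u := by
  rw [coeffMap_coeffMap]
  exact coeffMap_congr (RingHom.ext_int _ _) u

/-- `coeffMap` of an injective ring hom is injective. -/
private theorem rational_aux_coeffMap_injective {S T : Type*} [CommRing S] [CommRing T]
    (g : S →+* T) (hg : Function.Injective g) : Function.Injective (coeffMap g) := by
  intro x y hxy
  ext k
  apply hg
  have h1 := congrArg (fun z : LaurentSeries T => z.coeff k) hxy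
  simpa using h1

/-- Base change of `c(j, u)`. -/
private theorem rational_aux_ev2_map {S T : Type*} [CommRing S] [CommRing T] (g : S →+* T)
    (u : LaurentSeries ℤ) (c : Polynomial (Polynomial S)) :
    ev2 (jqModC T) (coeffMap (Int.castRingHom T) u) (c.map (Polynomial.mapRingHom g)) =
      coeffMap g (ev2 (jqModC S) (coeffMap (Int.castRingHom S) u) c) := by
  rw [coeffMap_ev2, coeffMap_jqModC, rational_aux_coeffMap_int]

section

variable {N : ℕ} [NeZero N] {W : Subring (AlgebraicClosure ℚ)}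
  {u : LaurentSeries ℤ} {ι : Type} [Fintype ι] {i₀ : ι} {G : ι → LaurentSeries ↥W}
  {Ψ : Polynomial (Polynomial ↥W)}

/-- `Ψ` descends to a monic polynomial `Ψ₀` over `ℤ_(ℓ)` of the same degree with
`Ψ₀(j, u) = 0` over `ℚ`. -/
theorem AnaPkg.exists_rational (h : AnaPkg N W u ι i₀ G Ψ) (ℓ : ℕ) [Fact ℓ.Prime]
    (hW : ∀ x : ℚ, algebraMap ℚ (AlgebraicClosure ℚ) x ∈ W → x ∈ GaloisRep.ratLocalizedAt ℓ) :
    ∃ Ψ₀ : Polynomial (Polynomial ↥(GaloisRep.ratLocalizedAt ℓ)),
      Ψ₀.Monic ∧ Ψ₀.natDegree = Fintype.card ι ∧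
      (Ψ₀.map (Polynomial.mapRingHom (GaloisRep.ratLocalizedAt ℓ).subtype)).map
          (Polynomial.mapRingHom (algebraMap ℚ (AlgebraicClosure ℚ))) =
        Ψ.map (Polynomial.mapRingHom W.subtype) ∧
      ev2 (jqModC ℚ) (coeffMap (Int.castRingHom ℚ) u)
        (Ψ₀.map (Polynomial.mapRingHom (GaloisRep.ratLocalizedAt ℓ).subtype)) = 0 := by
  -- the polynomial over `ℚ̄`
  have hΨQ0 : ev2 (jqModC (AlgebraicClosure ℚ)) (coeffMap (Int.castRingHom (AlgebraicClosure ℚ)) u)
      (Ψ.map (Polynomial.mapRingHom W.subtype)) = 0 := by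
    rw [rational_aux_ev2_map, h.ev2_eq_zero, map_zero]
  have hΨQmonic : (Ψ.map (Polynomial.mapRingHom W.subtype)).Monic := h.monic.map _
  have hΨQdeg : (Ψ.map (Polynomial.mapRingHom W.subtype)).natDegree = Fintype.card ι := by
    rw [h.monic.natDegree_map, h.natDegree_eq]
  -- descent to `ℚ`
  obtain ⟨P, hP1, hP2⟩ := exists_descent u
  obtain ⟨hmonic, hdeg⟩ := hP1 _ hΨQmonic
  have h0 : ev2 (jqModC ℚ) (coeffMap (Int.castRingHom ℚ) u)
      (P (Ψ.map (Polynomial.mapRingHom W.subtype))) = 0 :=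
    (hP2 0 _ (by rw [map_zero, hΨQ0])).symm
  set ΨQ : Polynomial (Polynomial (AlgebraicClosure ℚ)) :=
    Ψ.map (Polynomial.mapRingHom W.subtype) with hΨQ
  set Ψr : Polynomial (Polynomial ℚ) := P ΨQ with hΨr
  -- the base change of `Ψr` coincides with `ΨQ`
  have hmonic' : (Ψr.map (Polynomial.mapRingHom (algebraMap ℚ (AlgebraicClosure ℚ)))).Monic :=
    hmonic.map _
  have hdeg' : (Ψr.map (Polynomial.mapRingHom (algebraMap ℚ (AlgebraicClosure ℚ)))).natDegree =
      ΨQ.natDegree := by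
    rw [hmonic.natDegree_map, hdeg]
  have hΔ0 : ev2 (jqModC (AlgebraicClosure ℚ))
      (coeffMap (Int.castRingHom (AlgebraicClosure ℚ)) u)
      (Ψr.map (Polynomial.mapRingHom (algebraMap ℚ (AlgebraicClosure ℚ))) - ΨQ) = 0 := by
    rw [ev2_sub, rational_aux_ev2_map, h0, map_zero, hΨQ0, sub_zero]
  have hΔ : Ψr.map (Polynomial.mapRingHom (algebraMap ℚ (AlgebraicClosure ℚ))) - ΨQ = 0 := by
    by_contra hne
    apply hne
    refine h.indep (κ := AlgebraicClosure ℚ) W.subtype _ ?_ hΔ0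
    have hlt : (Ψr.map (Polynomial.mapRingHom (algebraMap ℚ (AlgebraicClosure ℚ))) - ΨQ).degree <
        ΨQ.degree := by
      refine Polynomial.degree_sub_lt_right ?_ hΨQmonic.ne_zero ?_
      · rw [Polynomial.degree_eq_natDegree hmonic'.ne_zero,
          Polynomial.degree_eq_natDegree hΨQmonic.ne_zero, hdeg']
      · rw [hmonic'.leadingCoeff, hΨQmonic.leadingCoeff]
    have hlt' := Polynomial.natDegree_lt_natDegree hne hlt
    rwa [hΨQdeg] at hlt'
  have heq : Ψr.map (Polynomial.mapRingHom (algebraMap ℚ (AlgebraicClosure ℚ))) = ΨQ :=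
    sub_eq_zero.mp hΔ
  -- the coefficients of `Ψr` lie in `ℤ_(ℓ)`
  have hcoeff : ∀ i j : ℕ, (Ψr.coeff i).coeff j ∈ GaloisRep.ratLocalizedAt ℓ := by
    intro i j
    apply hW
    have h1 := congrArg (fun c : Polynomial (Polynomial (AlgebraicClosure ℚ)) =>
      (c.coeff i).coeff j) heq
    simp only [hΨQ, Polynomial.coeff_map, Polynomial.coe_mapRingHom] at h1
    rw [h1]
    exact ((Ψ.coeff i).coeff j).2
  -- lift to `ℤ_(ℓ)`
  have hlift : Ψr ∈ Polynomial.lifts
      (Polynomial.mapRingHom (GaloisRep.ratLocalizedAt ℓ).subtype) := by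
    rw [Polynomial.lifts_iff_coeff_lifts]
    intro i
    have h2 : Ψr.coeff i ∈ Polynomial.lifts (GaloisRep.ratLocalizedAt ℓ).subtype := by
      rw [Polynomial.lifts_iff_coeff_lifts]
      intro j
      exact ⟨⟨(Ψr.coeff i).coeff j, hcoeff i j⟩, rfl⟩
    obtain ⟨b, hb⟩ := (Polynomial.mem_lifts _).1 h2
    exact ⟨b, hb⟩
  obtain ⟨Ψ₀, hΨ₀⟩ := (Polynomial.mem_lifts _).1 hlift
  have hinj : Function.Injective (Polynomial.mapRingHom (GaloisRep.ratLocalizedAt ℓ).subtype) :=
    Polynomial.map_injective _ Subtype.val_injective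
  refine ⟨Ψ₀, ?_, ?_, ?_, ?_⟩
  · apply Polynomial.monic_of_injective hinj
    rw [hΨ₀]
    exact hmonic
  · rw [← Polynomial.natDegree_map_eq_of_injective hinj, hΨ₀, hdeg, hΨQdeg]
  · rw [hΨ₀, heq]
  · rw [hΨ₀]
    exact h0

/-- Clause 5 of `exists_package`: `j(q^d) ∈ ℚ(j, u)`, with denominator `Ψ₀'(j, u)`. -/
theorem AnaPkg.exists_gen (h : AnaPkg N W u ι i₀ G Ψ) (Ψ₀ : Polynomial (Polynomial ℚ))
    (hΨ₀ : Ψ₀.map (Polynomial.mapRingHom (algebraMap ℚ (AlgebraicClosure ℚ))) =
      Ψ.map (Polynomial.mapRingHom W.subtype))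
    (d : ℕ) [NeZero d] (hd : d ∣ N) :
    ∃ c a : Polynomial (Polynomial ℚ),
      ev2 (jqModC ℚ) (coeffMap (Int.castRingHom ℚ) u) c ≠ 0 ∧
      ev2 (jqModC ℚ) (coeffMap (Int.castRingHom ℚ) u) c * qExpand ℚ d (jqModC ℚ) =
        ev2 (jqModC ℚ) (coeffMap (Int.castRingHom ℚ) u) a := by
  obtain ⟨Q, hQ⟩ := h.f d hd
  obtain ⟨P, -, hP2⟩ := exists_descent u
  -- base change of the denominator
  have hDQ : coeffMap (algebraMap ℚ (AlgebraicClosure ℚ))
      (ev2 (jqModC ℚ) (coeffMap (Int.castRingHom ℚ) u) (Polynomial.derivative Ψ₀)) =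
      ev2 (jqModC (AlgebraicClosure ℚ)) (coeffMap (Int.castRingHom (AlgebraicClosure ℚ)) u)
        (Polynomial.derivative (Ψ.map (Polynomial.mapRingHom W.subtype))) := by
    rw [← rational_aux_ev2_map, ← Polynomial.derivative_map, hΨ₀]
  refine ⟨Polynomial.derivative Ψ₀, P Q, ?_, ?_⟩
  · intro hD
    rw [hD, map_zero, Polynomial.derivative_map, rational_aux_ev2_map] at hDQ
    have h1 : coeffMap W.subtype
        (ev2 (jqModC ↥W) (coeffMap (Int.castRingHom ↥W) u) (Polynomial.derivative Ψ)) =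
        coeffMap W.subtype 0 := by
      rw [map_zero]
      exact hDQ.symm
    exact h.deriv_ne_zero h.injective
      (rational_aux_coeffMap_injective W.subtype Subtype.val_injective h1)
  · apply hP2
    rw [map_mul, hDQ, coeffMap_qExpand, coeffMap_jqModC, mul_comm]
    exact hQ

end

end Fermat.Agent.S28
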