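import Fermat.Agent.S28.Zl

/-!
# S28, Part B: the ring `W` (integral closure of `ℤ_(ℓ)` in `ℚ̄`) and a residue field.
(statement frozen)
-/

set_option autoImplicit false

noncomputable section

namespace Fermat.Agent.S28

open ModularCurve

/-- There is a subring `W ⊆ ℚ̄` containing all algebraic integers and `1/N`, with
`W ∩ ℚ ⊆ ℤ_(ℓ)`, together with a ring homomorphism to a field of characteristic `ℓ`. -/
theorem exists_W (ℓ : ℕ) [Fact ℓ.Prime] (N : ℕ) [NeZero N] (hℓN : ¬ ℓ ∣ N) :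
    ∃ (W : Subring (AlgebraicClosure ℚ)) (κ : Type) (_ : Field κ) (_ : CharP κ ℓ)
      (_ : ↥W →+* κ),
      (∀ x : AlgebraicClosure ℚ, IsIntegral ℤ x → x ∈ W) ∧
      (∃ y ∈ W, y * (N : AlgebraicClosure ℚ) = 1) ∧
      (∀ x : ℚ, algebraMap ℚ (AlgebraicClosure ℚ) x ∈ W → x ∈ GaloisRep.ratLocalizedAt ℓ) := by
  classical
  have hℓ : ℓ.Prime := Fact.out
  -- the ring `W`
  let W : Subring (AlgebraicClosure ℚ) :=
    (integralClosure ↥(GaloisRep.ratLocalizedAt ℓ) (AlgebraicClosure ℚ)).toSubring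
  have hmemW : ∀ x : AlgebraicClosure ℚ,
      x ∈ W ↔ IsIntegral ↥(GaloisRep.ratLocalizedAt ℓ) x := fun x => Iff.rfl
  -- (3) `W ∩ ℚ ⊆ ℤ_(ℓ)`
  have h3 : ∀ x : ℚ, algebraMap ℚ (AlgebraicClosure ℚ) x ∈ W →
      x ∈ GaloisRep.ratLocalizedAt ℓ := by
    intro x hx
    apply zl_mem_of_isIntegral ℓ x
    exact (isIntegral_algHom_iff
      (IsScalarTower.toAlgHom ↥(GaloisRep.ratLocalizedAt ℓ) ℚ (AlgebraicClosure ℚ))
      (algebraMap ℚ (AlgebraicClosure ℚ)).injective).1 ((hmemW _).1 hx)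
  -- (4) `ℓ` is not a unit of `W`
  have hnotunit : ¬ IsUnit ((ℓ : ℕ) : ↥W) := by
    rintro ⟨u, hu⟩
    have h1 : ((u⁻¹ : (↥W)ˣ) : ↥W) * ((ℓ : ℕ) : ↥W) = 1 := by
      rw [← hu]; exact u.inv_mul
    have h2 : ((((u⁻¹ : (↥W)ˣ) : ↥W)) : AlgebraicClosure ℚ) * ((ℓ : ℕ) : AlgebraicClosure ℚ)
        = 1 := by
      have := congrArg (Subtype.val : ↥W → AlgebraicClosure ℚ) h1
      simpa using this
    have h4 : ((((u⁻¹ : (↥W)ˣ) : ↥W)) : AlgebraicClosure ℚ) =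
        algebraMap ℚ (AlgebraicClosure ℚ) ((ℓ : ℚ)⁻¹) := by
      rw [map_inv₀, map_natCast]
      exact eq_inv_of_mul_eq_one_left h2
    have h5 := h3 ((ℓ : ℚ)⁻¹) (h4 ▸ ((u⁻¹ : (↥W)ˣ) : ↥W).2)
    rw [mem_zl_iff, Rat.inv_natCast_den] at h5
    simp [hℓ.ne_zero] at h5
  obtain ⟨𝔪, hmax, hle⟩ := Ideal.exists_le_maximal (Ideal.span {((ℓ : ℕ) : ↥W)})
    (by rwa [Ne, Ideal.span_singleton_eq_top])
  letI : Field (↥W ⧸ 𝔪) := Ideal.Quotient.field 𝔪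
  have hzero : ((ℓ : ℕ) : ↥W ⧸ 𝔪) = 0 := by
    have h0 : Ideal.Quotient.mk 𝔪 ((ℓ : ℕ) : ↥W) = 0 :=
      Ideal.Quotient.eq_zero_iff_mem.2 (hle (Ideal.subset_span (Set.mem_singleton _)))
    rwa [map_natCast] at h0
  have hchar : CharP (↥W ⧸ 𝔪) ℓ := (CharP.charP_iff_prime_eq_zero hℓ).2 hzero
  refine ⟨W, ↥W ⧸ 𝔪, Ideal.Quotient.field 𝔪, hchar, Ideal.Quotient.mk 𝔪, ?_, ?_, h3⟩
  · -- (1) algebraic integers
    intro x hx
    exact (hmemW x).2 hx.tower_top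
  · -- (2) `1 / N`
    obtain ⟨u, hu⟩ := zl_isUnit_natCast ℓ hℓN
    refine ⟨algebraMap ↥(GaloisRep.ratLocalizedAt ℓ) (AlgebraicClosure ℚ)
      ((u⁻¹ : (↥(GaloisRep.ratLocalizedAt ℓ))ˣ) : ↥(GaloisRep.ratLocalizedAt ℓ)),
      (hmemW _).2 isIntegral_algebraMap, ?_⟩
    have hN : ((N : ℕ) : AlgebraicClosure ℚ) =
        algebraMap ↥(GaloisRep.ratLocalizedAt ℓ) (AlgebraicClosure ℚ)
          ((N : ℕ) : ↥(GaloisRep.ratLocalizedAt ℓ)) := (map_natCast _ N).symm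
    rw [hN, ← map_mul, ← hu, Units.inv_mul, map_one]

end Fermat.Agent.S28
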