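import Fermat.Agent.S28.Defs

/-!
# S28, Part B: definitions of the sub-skeleton (owner: helper95).  Complete, no `sorry`.
Do not edit without asking helper95.

* `LeadingAt J M`: the Laurent series `J` "has a pole of exact order `M` with leading coefficient
  `1`", in the strong form for all powers: `(J^k).coeff (-(M k)) = 1` and `(J^k).coeff m = 0` for
  `m < -(M k)`.  (`jqModC S` satisfies it with `M = 1`, `qExpand S N (jqModC S)` with `M = N`.)
* `RootData M J ψ g i₀`: the hypotheses of the irreducibility lemma (B1) over a field `κ`.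
* `AnaPkg N W u ι i₀ G Ψ`: the clauses of the analytic package `exists_analytic_package`.
-/

set_option autoImplicit false

noncomputable section

namespace Fermat.Agent.S28

open ModularCurve

/-- `J` has leading term `q^{-M}` (and `J^k` has leading term `q^{-Mk}` for all `k`). -/
def LeadingAt {S : Type*} [CommRing S] (J : LaurentSeries S) (M : ℕ) : Prop :=
  ∀ k : ℕ, (J ^ k).coeff (-((M * k : ℕ) : ℤ)) = 1 ∧
    ∀ m : ℤ, m < -((M * k : ℕ) : ℤ) → (J ^ k).coeff m = 0

/-- Hypotheses of the irreducibility lemma: over a field `κ`, a monic `ψ ∈ κ[Y][X]` which splits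
over `κ((q))` after `Y ↦ J` with roots `g i`, all of which except `g i₀` are nonzero and vanish
to positive order, while `g i₀` has a nonzero coefficient in some degree `≤ 0`. -/
structure RootData {κ : Type*} [Field κ] {ι : Type*} [Fintype ι] (M : ℕ) (J : LaurentSeries κ)
    (ψ : Polynomial (Polynomial κ)) (g : ι → LaurentSeries κ) (i₀ : ι) : Prop where
  M_pos : 0 < M
  lead : LeadingAt J M
  monic : ψ.Monic
  split : ψ.map (Polynomial.eval₂RingHom (HahnSeries.C : κ →+* LaurentSeries κ) J) =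
    ∏ i, (Polynomial.X - Polynomial.C (g i))
  other : ∀ i, i ≠ i₀ → g i ≠ 0 ∧ ∀ m : ℤ, m ≤ 0 → (g i).coeff m = 0
  main : ∃ m : ℤ, m ≤ 0 ∧ (g i₀).coeff m ≠ 0

/-- The clauses (a), (b), (c), (d), (f) of `exists_analytic_package` (file `Ana.lean`). -/
structure AnaPkg (N : ℕ) [NeZero N] (W : Subring (AlgebraicClosure ℚ)) (u : LaurentSeries ℤ)
    (ι : Type) [Fintype ι] (i₀ : ι) (G : ι → LaurentSeries ↥W)
    (Ψ : Polynomial (Polynomial ↥W)) : Prop where
  a : ∃ m : ℤ, m ≤ 0 ∧ IsUnit (u.coeff m)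
  b : G i₀ = qExpand ↥W N (coeffMap (Int.castRingHom ↥W) u)
  c : ∀ i, i ≠ i₀ → (∀ m : ℤ, m ≤ 0 → (G i).coeff m = 0) ∧ ∃ m : ℤ, IsUnit ((G i).coeff m)
  monic : Ψ.Monic
  d : Ψ.map (Polynomial.eval₂RingHom (HahnSeries.C : ↥W →+* LaurentSeries ↥W)
      (qExpand ↥W N (jqModC ↥W))) = ∏ i, (Polynomial.X - Polynomial.C (G i))
  f : ∀ (d : ℕ) [NeZero d], d ∣ N → ∃ Q : Polynomial (Polynomial (AlgebraicClosure ℚ)),
    qExpand (AlgebraicClosure ℚ) d (jqModC (AlgebraicClosure ℚ)) *
      ev2 (jqModC (AlgebraicClosure ℚ)) (coeffMap (Int.castRingHom (AlgebraicClosure ℚ)) u)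
        (Polynomial.derivative (Ψ.map (Polynomial.mapRingHom W.subtype))) =
    ev2 (jqModC (AlgebraicClosure ℚ)) (coeffMap (Int.castRingHom (AlgebraicClosure ℚ)) u) Q

end Fermat.Agent.S28
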