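import Fermat.Agent.S28.ModL.Transc

/-!
# S28, Part B, step B1b: independence of `1, g, …, g^{n-1}` over `κ(J)` for the root `g = g i₀`.
(statement frozen)
-/

set_option autoImplicit false

noncomputable section

namespace Fermat.Agent.S28

open ModularCurve

/-- If `ψ` is irreducible, no nonzero `c ∈ κ[Y][X]` of `X`-degree `< deg ψ` vanishes at
`(J, g i₀)`. -/
theorem RootData.indep {κ : Type*} [Field κ] {ι : Type*} [Fintype ι] {M : ℕ}
    {J : LaurentSeries κ} {ψ : Polynomial (Polynomial κ)} {g : ι → LaurentSeries κ} {i₀ : ι}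
    (h : RootData M J ψ g i₀) (hirr : Irreducible ψ) (c : Polynomial (Polynomial κ))
    (hc : c.natDegree < ψ.natDegree) (h0 : ev2 J (g i₀) c = 0) : c = 0 := by
  classical
  by_contra hc0
  have hφinj : Function.Injective
      (Polynomial.eval₂RingHom (HahnSeries.C : κ →+* LaurentSeries κ) J) :=
    LeadingAt.eval₂_injective h.lead h.M_pos
  generalize hφ : Polynomial.eval₂RingHom (HahnSeries.C : κ →+* LaurentSeries κ) J = φ
    at hφinj
  have hsplit : ψ.map φ = ∏ i, (Polynomial.X - Polynomial.C (g i)) := hφ ▸ h.split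
  have h0' : Polynomial.eval₂ φ (g i₀) c = 0 := by
    rw [← hφ, ← ev2_def]; exact h0
  obtain ⟨φK, hφK⟩ : ∃ φK : FractionRing (Polynomial κ) →+* LaurentSeries κ,
      φK.comp (algebraMap (Polynomial κ) (FractionRing (Polynomial κ))) = φ := by
    have h1 : ∀ y : nonZeroDivisors (Polynomial κ), IsUnit (φ y) := by
      intro y
      have hy : (y : Polynomial κ) ≠ 0 := nonZeroDivisors.coe_ne_zero y
      have h2 : φ y ≠ 0 := fun h' => hy (hφinj (h'.trans (map_zero φ).symm))
      exact isUnit_iff_ne_zero.mpr h2
    exact ⟨IsLocalization.lift h1, IsLocalization.lift_comp h1⟩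
  have hψK : Irreducible (ψ.map (algebraMap (Polynomial κ) (FractionRing (Polynomial κ)))) :=
    (Polynomial.Monic.irreducible_iff_irreducible_map_fraction_map h.monic).mp hirr
  have hinjK : Function.Injective
      (algebraMap (Polynomial κ) (FractionRing (Polynomial κ))) :=
    IsFractionRing.injective _ _
  have hcK : c.map (algebraMap (Polynomial κ) (FractionRing (Polynomial κ))) ≠ 0 :=
    (Polynomial.map_ne_zero_iff hinjK).mpr hc0
  have hnd : ¬ ψ.map (algebraMap (Polynomial κ) (FractionRing (Polynomial κ))) ∣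
      c.map (algebraMap (Polynomial κ) (FractionRing (Polynomial κ))) := by
    intro hd
    have hle := Polynomial.natDegree_le_of_dvd hd hcK
    rw [h.monic.natDegree_map, Polynomial.natDegree_map_eq_of_injective hinjK] at hle
    omega
  obtain ⟨a, b, hab⟩ := (hψK.coprime_iff_not_dvd).mpr hnd
  have key := congrArg (fun q => (q.map φK).eval (g i₀)) hab
  simp only [Polynomial.map_add, Polynomial.map_mul, Polynomial.map_map, hφK,
    Polynomial.eval_add, Polynomial.eval_mul, Polynomial.map_one, Polynomial.eval_one] at key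
  have e1 : (ψ.map φ).eval (g i₀) = 0 := by
    rw [hsplit, Polynomial.eval_prod]
    exact Finset.prod_eq_zero (Finset.mem_univ i₀) (by simp)
  have e2 : (c.map φ).eval (g i₀) = 0 := by
    rw [← Polynomial.eval₂_eq_eval_map]; exact h0'
  rw [e1, e2, mul_zero, mul_zero, add_zero] at key
  exact zero_ne_one key

end Fermat.Agent.S28
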