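import Fermat.Agent.S28.ModL.Transc

/-!
# S28, Part B, step B1c: the roots are pairwise distinct.  (statement frozen)
-/

set_option autoImplicit false

noncomputable section

namespace Fermat.Agent.S28

open ModularCurve

/-- The derivative of `∏ i, (X - C (g i))` does not vanish at `g i₀` when `g i ≠ g i₀` for
all `i ≠ i₀`. -/
private theorem irrc_aux_eval_derivative {L : Type*} [Field L] {ι : Type*} [Fintype ι]
    (g : ι → L) (i₀ : ι) (hne : ∀ i, i ≠ i₀ → g i ≠ g i₀) :
    (Polynomial.derivative (∏ i, (Polynomial.X - Polynomial.C (g i)))).eval (g i₀) ≠ 0 := by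
  classical
  rw [← Finset.mul_prod_erase Finset.univ (fun i => Polynomial.X - Polynomial.C (g i))
    (Finset.mem_univ i₀), Polynomial.derivative_mul]
  simp only [Polynomial.derivative_sub, Polynomial.derivative_X, Polynomial.derivative_C,
    sub_zero, one_mul, Polynomial.eval_add, Polynomial.eval_mul, Polynomial.eval_sub,
    Polynomial.eval_X, Polynomial.eval_C, sub_self, zero_mul, add_zero]
  rw [Polynomial.eval_prod]
  refine Finset.prod_ne_zero_iff.mpr fun i hi => ?_
  simp only [Polynomial.eval_sub, Polynomial.eval_X, Polynomial.eval_C]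
  exact sub_ne_zero.mpr (hne i (Finset.ne_of_mem_erase hi)).symm

/-- The roots of `∏ i, (X - C (g i))`. -/
private theorem irrc_aux_roots {L : Type*} [Field L] {ι : Type*} [Fintype ι] (g : ι → L) :
    (∏ i, (Polynomial.X - Polynomial.C (g i))).roots = Multiset.map g Finset.univ.val := by
  have : (∏ i, (Polynomial.X - Polynomial.C (g i))) =
      ((Multiset.map g Finset.univ.val).map fun a => Polynomial.X - Polynomial.C a).prod := by
    rw [Multiset.map_map]
    rfl
  rw [this, Polynomial.roots_multiset_prod_X_sub_C]

/-- If `ψ` is irreducible, its roots `g i` are pairwise distinct (`ψ` is separable because the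
root `g i₀` is simple). -/
theorem RootData.injective {κ : Type*} [Field κ] {ι : Type*} [Fintype ι] {M : ℕ}
    {J : LaurentSeries κ} {ψ : Polynomial (Polynomial κ)} {g : ι → LaurentSeries κ} {i₀ : ι}
    (h : RootData M J ψ g i₀) (hirr : Irreducible ψ) : Function.Injective g := by
  classical
  -- the injective evaluation map `κ[Y] → κ((q))`
  have hφ : Function.Injective
      (Polynomial.eval₂RingHom (HahnSeries.C : κ →+* LaurentSeries κ) J) :=
    LeadingAt.eval₂_injective h.lead h.M_pos
  -- its extension to the fraction field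
  obtain ⟨φK, hφK⟩ : ∃ φK : FractionRing (Polynomial κ) →+* LaurentSeries κ,
      φK.comp (algebraMap (Polynomial κ) (FractionRing (Polynomial κ))) =
        Polynomial.eval₂RingHom (HahnSeries.C : κ →+* LaurentSeries κ) J :=
    ⟨IsFractionRing.lift hφ, RingHom.ext fun x => by
      rw [RingHom.comp_apply, IsFractionRing.lift_algebraMap hφ x]⟩
  -- Gauss
  have hirrK : Irreducible (ψ.map (algebraMap (Polynomial κ) (FractionRing (Polynomial κ)))) :=
    (h.monic.irreducible_iff_irreducible_map_fraction_map).1 hirr
  have hmap : (ψ.map (algebraMap (Polynomial κ) (FractionRing (Polynomial κ)))).map φK =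
      ∏ i, (Polynomial.X - Polynomial.C (g i)) := by
    rw [Polynomial.map_map, hφK, h.split]
  -- `g i ≠ g i₀` for `i ≠ i₀`
  have hne : ∀ i, i ≠ i₀ → g i ≠ g i₀ := by
    intro i hi heq
    obtain ⟨m, hm, hm0⟩ := h.main
    exact hm0 (by rw [← heq]; exact (h.other i hi).2 m hm)
  -- the derivative does not vanish
  have hder : Polynomial.derivative
      (ψ.map (algebraMap (Polynomial κ) (FractionRing (Polynomial κ)))) ≠ 0 := by
    intro h0
    have h1 := irrc_aux_eval_derivative g i₀ hne
    rw [← hmap, Polynomial.derivative_map, h0, Polynomial.map_zero, Polynomial.eval_zero] at h1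
    exact h1 rfl
  have hsep : (ψ.map (algebraMap (Polynomial κ) (FractionRing (Polynomial κ)))).Separable :=
    (Polynomial.separable_iff_derivative_ne_zero hirrK).2 hder
  have hsepL : (∏ i, (Polynomial.X - Polynomial.C (g i))).Separable := by
    rw [← hmap]
    exact hsep.map
  have hnodup := Polynomial.nodup_roots hsepL
  rw [irrc_aux_roots] at hnodup
  intro x y hxy
  exact Multiset.inj_on_of_nodup_map hnodup x (Finset.mem_univ x) y (Finset.mem_univ y) hxy

end Fermat.Agent.S28
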