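import Fermat.Agent.S28.ModL.Transc

/-!
# S28, Part B: the analytic package gives `RootData` over every field under `W`.
(statement frozen)
-/

set_option autoImplicit false

noncomputable section

namespace Fermat.Agent.S28

open ModularCurve

/-- Compatibility of "evaluate the inner variable at `j(q^N)`" with a change of coefficients. -/
private theorem reduce_aux_hom_eq {N : ℕ} [NeZero N] {S T : Type*} [CommRing S] [CommRing T]
    (r : S →+* T) :
    (coeffMap r).comp (Polynomial.eval₂RingHom (HahnSeries.C : S →+* LaurentSeries S)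
        (qExpand S N (jqModC S))) =
      (Polynomial.eval₂RingHom (HahnSeries.C : T →+* LaurentSeries T)
        (qExpand T N (jqModC T))).comp (Polynomial.mapRingHom r) := by
  apply Polynomial.ringHom_ext
  · intro a
    simp only [RingHom.comp_apply, Polynomial.coe_eval₂RingHom, Polynomial.eval₂_C,
      Polynomial.coe_mapRingHom, Polynomial.map_C, HahnSeries.C_apply, coeffMap_single]
  · simp only [RingHom.comp_apply, Polynomial.coe_eval₂RingHom, Polynomial.eval₂_X,
      Polynomial.coe_mapRingHom, Polynomial.map_X]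
    rw [ModularCurve.coeffMap_qExpand, coeffMap_jqModC]

/-- Push the analytic package forward along a ring homomorphism `r : W →+* κ` to a field. -/
theorem AnaPkg.rootData {N : ℕ} [NeZero N] {W : Subring (AlgebraicClosure ℚ)}
    {u : LaurentSeries ℤ} {ι : Type} [Fintype ι] {i₀ : ι} {G : ι → LaurentSeries ↥W}
    {Ψ : Polynomial (Polynomial ↥W)} (h : AnaPkg N W u ι i₀ G Ψ)
    {κ : Type*} [Field κ] (r : ↥W →+* κ) :
    RootData N (qExpand κ N (jqModC κ)) (Ψ.map (Polynomial.mapRingHom r))
      (fun i => coeffMap r (G i)) i₀ := by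
  refine ⟨Nat.pos_of_ne_zero (NeZero.ne N), leadingAt_qExpand_jqModC κ N, h.monic.map _, ?_, ?_, ?_⟩
  · -- split
    have hd := congrArg (Polynomial.map (coeffMap r)) h.d
    rw [Polynomial.map_map, reduce_aux_hom_eq (N := N) r, ← Polynomial.map_map,
      Polynomial.map_prod] at hd
    rw [hd]
    refine Finset.prod_congr rfl fun i _ => ?_
    rw [Polynomial.map_sub, Polynomial.map_X, Polynomial.map_C]
  · -- other
    intro i hi
    obtain ⟨hz, m, hm⟩ := h.c i hi
    refine ⟨?_, ?_⟩
    · intro h0
      have h1 : (coeffMap r (G i)).coeff m = 0 := by rw [h0]; rfl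
      rw [coeffMap_coeff] at h1
      exact (hm.map r).ne_zero h1
    · intro m hm
      rw [coeffMap_coeff, hz m hm, map_zero]
  · -- main
    obtain ⟨m, hm, hu⟩ := h.a
    refine ⟨(N : ℤ) * m, mul_nonpos_of_nonneg_of_nonpos (Int.natCast_nonneg N) hm, ?_⟩
    have e : coeffMap r (G i₀) = qExpand κ N (coeffMap (Int.castRingHom κ) u) := by
      rw [h.b, ModularCurve.coeffMap_qExpand, coeffMap_coeffMap]
      congr 1
      exact coeffMap_congr (RingHom.ext_int _ _) u
    show (coeffMap r (G i₀)).coeff ((N : ℤ) * m) ≠ 0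
    rw [e, qExpand_coeff_mul, coeffMap_coeff]
    exact (hu.map (Int.castRingHom κ)).ne_zero

end Fermat.Agent.S28
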