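import Fermat.Agent.S28.ModL.IrrA
import Fermat.Agent.S28.ModL.IrrB
import Fermat.Agent.S28.ModL.IrrC
import Fermat.Agent.S28.ModL.Reduce

/-!
# S28, Part B: consequences of the irreducibility lemma for the analytic package.
(statements frozen)
-/

set_option autoImplicit false

noncomputable section

namespace Fermat.Agent.S28

open ModularCurve

section

variable {N : ℕ} [NeZero N] {W : Subring (AlgebraicClosure ℚ)}
  {u : LaurentSeries ℤ} {ι : Type} [Fintype ι] {i₀ : ι} {G : ι → LaurentSeries ↥W}
  {Ψ : Polynomial (Polynomial ↥W)}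

/-- `deg Ψ = #ι`. -/
theorem AnaPkg.natDegree_eq (h : AnaPkg N W u ι i₀ G Ψ) : Ψ.natDegree = Fintype.card ι := by
  have h1 := congrArg Polynomial.natDegree h.d
  rw [h.monic.natDegree_map, Polynomial.natDegree_finsetProd_X_sub_C_eq_card] at h1
  rw [h1, Finset.card_univ]

/-- The conjugates `G i` are pairwise distinct. -/
theorem AnaPkg.injective (h : AnaPkg N W u ι i₀ G Ψ) : Function.Injective G := by
  have R := h.rootData (κ := AlgebraicClosure ℚ) W.subtype
  have hinj := R.injective R.irreducible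
  intro a b hab
  exact hinj (congrArg (coeffMap W.subtype) hab)

/-- Independence over any field `κ` under `W`: no nonzero `c ∈ κ[Y][X]` of `X`-degree `< #ι`
kills `(j, u)` over `κ`. -/
theorem AnaPkg.indep (h : AnaPkg N W u ι i₀ G Ψ) {κ : Type*} [Field κ] (r : ↥W →+* κ)
    (c : Polynomial (Polynomial κ)) (hc : c.natDegree < Fintype.card ι)
    (h0 : ev2 (jqModC κ) (coeffMap (Int.castRingHom κ) u) c = 0) : c = 0 := by
  have R := h.rootData r
  refine R.indep R.irreducible c ?_ ?_
  · rw [h.monic.natDegree_map, h.natDegree_eq]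
    exact hc
  · have hg : coeffMap r (G i₀) = qExpand κ N (coeffMap (Int.castRingHom κ) u) := by
      rw [h.b, ModularCurve.coeffMap_qExpand, coeffMap_coeffMap,
        RingHom.ext_int (r.comp (Int.castRingHom ↥W)) (Int.castRingHom κ)]
    show ev2 (qExpand κ N (jqModC κ)) (coeffMap r (G i₀)) c = 0
    rw [hg, ← qExpand_ev2, h0, map_zero]

/-- Independence mod `ℓ` (clause 4 of `exists_package`), given any field `κ` of characteristic
`ℓ` under `W`. -/
theorem AnaPkg.modl_indep (h : AnaPkg N W u ι i₀ G Ψ) (ℓ : ℕ) [Fact ℓ.Prime]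
    {κ : Type*} [Field κ] [CharP κ ℓ] (r : ↥W →+* κ)
    (c : Polynomial (Polynomial (ZMod ℓ))) (hc : c.natDegree < Fintype.card ι)
    (h0 : ev2 (jqModC (ZMod ℓ)) (coeffMap (Int.castRingHom (ZMod ℓ)) u) c = 0) : c = 0 := by
  let e : ZMod ℓ →+* κ := ZMod.castHom (dvd_refl ℓ) κ
  have he : Function.Injective e := e.injective
  have h1 : ev2 (jqModC κ) (coeffMap (Int.castRingHom κ) u)
      (c.map (Polynomial.mapRingHom e)) = 0 := by
    have h2 := coeffMap_ev2 e (jqModC (ZMod ℓ)) (coeffMap (Int.castRingHom (ZMod ℓ)) u) c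
    rw [h0, map_zero, coeffMap_jqModC, coeffMap_coeffMap,
      RingHom.ext_int (e.comp (Int.castRingHom (ZMod ℓ))) (Int.castRingHom κ)] at h2
    exact h2.symm
  have h3 : c.map (Polynomial.mapRingHom e) = 0 :=
    h.indep r _ (lt_of_le_of_lt (Polynomial.natDegree_map_le) hc) h1
  have hinj : Function.Injective (Polynomial.mapRingHom e) := Polynomial.map_injective e he
  exact Polynomial.map_injective _ hinj (h3.trans (Polynomial.map_zero _).symm)

end

end Fermat.Agent.S28
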