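import Fermat.Agent.S28.ModL.Transc

/-!
# S28, Part B, step B1a: the irreducibility lemma.  (statement frozen)
-/

set_option autoImplicit false

noncomputable section

namespace Fermat.Agent.S28

open ModularCurve

/-- A nonzero Laurent series all of whose coefficients in degrees `≤ 0` vanish has positive
order. -/
private theorem irra_aux_order_pos {κ : Type*} [Field κ] {r : LaurentSeries κ} (hr : r ≠ 0)
    (h : ∀ m : ℤ, m ≤ 0 → r.coeff m = 0) : 0 < r.order := by
  by_contra hle
  exact hr (HahnSeries.coeff_order_eq_zero.mp (h _ (not_lt.mp hle)))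

/-- A product of nonzero Laurent series of positive order is nonzero, of order at least the
number of factors. -/
private theorem irra_aux_prod {κ : Type*} [Field κ] (s : Multiset (LaurentSeries κ))
    (hs : ∀ r ∈ s, r ≠ 0 ∧ 0 < r.order) : s.prod ≠ 0 ∧ (s.card : ℤ) ≤ s.prod.order := by
  induction s using Multiset.induction_on with
  | empty => simp
  | cons a s ih =>
    have ha := hs a (Multiset.mem_cons_self a s)
    have ih' := ih (fun r hr => hs r (Multiset.mem_cons_of_mem hr))
    rw [Multiset.prod_cons, Multiset.card_cons]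
    refine ⟨mul_ne_zero ha.1 ih'.1, ?_⟩
    rw [HahnSeries.order_mul ha.1 ih'.1]
    push_cast
    have h1 := ha.2
    have h2 := ih'.2
    omega

/-- A monic `D ∈ κ[Y][X]` whose image divides `∏ (X - g i)` and which does not vanish at `g i₀`
is constant. -/
private theorem irra_aux_natDegree_eq_zero {κ : Type*} [Field κ] {ι : Type*} [Fintype ι] {M : ℕ}
    {J : LaurentSeries κ} {ψ : Polynomial (Polynomial κ)} {g : ι → LaurentSeries κ} {i₀ : ι}
    (h : RootData M J ψ g i₀) {D : Polynomial (Polynomial κ)} (hD : D.Monic)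
    (hdvd : D.map (Polynomial.eval₂RingHom (HahnSeries.C : κ →+* LaurentSeries κ) J) ∣
      ∏ i, (Polynomial.X - Polynomial.C (g i)))
    (hroot : (D.map (Polynomial.eval₂RingHom (HahnSeries.C : κ →+* LaurentSeries κ) J)).eval
      (g i₀) ≠ 0) :
    D.natDegree = 0 := by
  set φ := Polynomial.eval₂RingHom (HahnSeries.C : κ →+* LaurentSeries κ) J with hφ
  set E := D.map φ with hE
  have hEm : E.Monic := hD.map φ
  have hQ0 : (∏ i, (Polynomial.X - Polynomial.C (g i)) : Polynomial (LaurentSeries κ)) ≠ 0 :=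
    Finset.prod_ne_zero_iff.mpr (fun i _ => Polynomial.X_sub_C_ne_zero _)
  have hQs : (∏ i, (Polynomial.X - Polynomial.C (g i)) : Polynomial (LaurentSeries κ)).Splits :=
    Polynomial.Splits.prod (fun i _ => Polynomial.Splits.X_sub_C _)
  have hEs : E.Splits := hQs.of_dvd hQ0 hdvd
  have hroots : ∀ r ∈ E.roots, r ≠ 0 ∧ ∀ m : ℤ, m ≤ 0 → r.coeff m = 0 := by
    intro r hr
    have hr' : E.eval r = 0 := Polynomial.isRoot_of_mem_roots hr
    have h1 : (∏ i, (Polynomial.X - Polynomial.C (g i)) :
        Polynomial (LaurentSeries κ)).eval r = 0 := by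
      obtain ⟨c, hc⟩ := hdvd
      rw [hc, Polynomial.eval_mul, hr', zero_mul]
    rw [Polynomial.eval_prod] at h1
    obtain ⟨i, -, hi⟩ := Finset.prod_eq_zero_iff.mp h1
    simp only [Polynomial.eval_sub, Polynomial.eval_X, Polynomial.eval_C, sub_eq_zero] at hi
    have hi0 : i ≠ i₀ := by
      rintro rfl
      exact hroot (hi ▸ hr')
    rw [hi]
    exact h.other i hi0
  have hneg : ∀ r ∈ E.roots.map (fun r => 0 - r), r ≠ 0 ∧ 0 < r.order := by
    intro r hr
    obtain ⟨s, hs, rfl⟩ := Multiset.mem_map.mp hr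
    obtain ⟨hs0, hsm⟩ := hroots s hs
    have hne : (0 - s) ≠ 0 := by simpa using hs0
    exact ⟨hne, irra_aux_order_pos hne (fun m hm => by simp [hsm m hm])⟩
  obtain ⟨hP0, hPord⟩ := irra_aux_prod _ hneg
  have heval : φ (D.eval 0) = (E.roots.map (fun r => 0 - r)).prod := by
    rw [← Polynomial.eval_zero_map, ← hEs.eval_eq_prod_roots_of_monic hEm]
  have hb : D.eval 0 ≠ 0 := by
    intro hb
    rw [hb, map_zero] at heval
    exact hP0 heval.symm
  obtain ⟨m, hm, hmne⟩ := h.lead.exists_coeff_ne_zero h.M_pos hb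
  rw [Multiset.card_map] at hPord
  have hcard : E.roots.card = 0 := by
    by_contra hne
    apply hmne
    have hφb : φ (D.eval 0) = (D.eval 0).eval₂ HahnSeries.C J := by
      rw [hφ, Polynomial.coe_eval₂RingHom]
    rw [← hφb, heval]
    apply HahnSeries.coeff_eq_zero_of_lt_order
    have hpos : 0 < E.roots.card := Nat.pos_of_ne_zero hne
    omega
  rw [← hEs.natDegree_eq_card_roots] at hcard
  rwa [hE, hD.natDegree_map] at hcard

/-- `ψ` is irreducible in `κ[Y][X]`. -/
theorem RootData.irreducible {κ : Type*} [Field κ] {ι : Type*} [Fintype ι] {M : ℕ}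
    {J : LaurentSeries κ} {ψ : Polynomial (Polynomial κ)} {g : ι → LaurentSeries κ} {i₀ : ι}
    (h : RootData M J ψ g i₀) : Irreducible ψ := by
  classical
  set φ := Polynomial.eval₂RingHom (HahnSeries.C : κ →+* LaurentSeries κ) J with hφ
  rw [h.monic.irreducible_iff_natDegree]
  refine ⟨?_, ?_⟩
  · rintro rfl
    have hs := h.split
    rw [Polynomial.map_one] at hs
    have hdeg := congrArg Polynomial.natDegree hs
    rw [Polynomial.natDegree_one, Polynomial.natDegree_finsetProd_X_sub_C_eq_card] at hdeg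
    exact (Finset.card_pos.mpr ⟨i₀, Finset.mem_univ i₀⟩).ne hdeg
  · intro A B hA hB hAB
    have hsplit : A.map φ * B.map φ = ∏ i, (Polynomial.X - Polynomial.C (g i)) := by
      rw [← Polynomial.map_mul, hAB, h.split]
    by_cases hA0 : (A.map φ).eval (g i₀) = 0
    · by_cases hB0 : (B.map φ).eval (g i₀) = 0
      · exfalso
        obtain ⟨A', hA'⟩ := Polynomial.dvd_iff_isRoot.mpr hA0
        obtain ⟨B', hB'⟩ := Polynomial.dvd_iff_isRoot.mpr hB0
        have hprod := Finset.mul_prod_erase Finset.univ
          (fun i => (Polynomial.X - Polynomial.C (g i) : Polynomial (LaurentSeries κ)))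
          (Finset.mem_univ i₀)
        rw [← hsplit, hA', hB', mul_assoc] at hprod
        have hcancel := mul_left_cancel₀ (Polynomial.X_sub_C_ne_zero (g i₀)) hprod
        have hev := congrArg (Polynomial.eval (g i₀)) hcancel
        rw [Polynomial.eval_prod] at hev
        simp only [Polynomial.eval_mul, Polynomial.eval_sub, Polynomial.eval_X,
          Polynomial.eval_C, sub_self, zero_mul, mul_zero] at hev
        obtain ⟨i, hi, hi0⟩ := Finset.prod_eq_zero_iff.mp hev
        rw [sub_eq_zero] at hi0
        obtain ⟨m, hm, hmne⟩ := h.main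
        exact hmne (hi0 ▸ (h.other i (Finset.ne_of_mem_erase hi)).2 m hm)
      · right
        exact irra_aux_natDegree_eq_zero h hB (Dvd.intro_left _ hsplit) hB0
    · left
      exact irra_aux_natDegree_eq_zero h hA (Dvd.intro _ hsplit) hA0

end Fermat.Agent.S28
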